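/-
Flat infinitesimal deformations of a residual representation at `p`: the objects.
-/
import Fermat.Agent.MCurve.Flat.Setup
import Fermat.Agent.Deform.MatrixRep

set_option autoImplicit false

noncomputable section

namespace Fermat.Agent.FlatBound

open Fermat.Agent.Galois (GQ)
open Fermat.Agent.Deform (Mat2)
open Fermat.Agent.MCurve.Flat (HasFlatModel)

variable {k : Type} [Field k]

/-- The deformation `(1 + ε c) r` of `r`, read on pairs `a + ε b`, has a finite flat model at `p`. -/
def HasFlatLift (p : ℕ) (r : GQ →* Mat2 k) (c : GQ → Mat2 k) : Prop :=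
  ∃ (M : Type) (_ : AddCommGroup M) (_ : DistribMulAction GQ M)
    (e : M ≃+ (Fin 2 → k) × (Fin 2 → k)),
    (∀ (σ : GQ) (m : M), e (σ • m) =
      ((r σ).mulVec (e m).1, (r σ).mulVec (e m).2 + (c σ * r σ).mulVec (e m).1)) ∧
    HasFlatModel M p

/-- The determinant is the cyclotomic character modulo `p`. -/
def DetCyclo (p : ℕ) (r : GQ →* Mat2 k) : Prop :=
  ∀ (σ : GQ) (a : ℕ), (∀ μ : AlgebraicClosure ℚ, μ ^ p = 1 → σ μ = μ ^ a) →
    (r σ).det = (a : k)

end Fermat.Agent.FlatBound
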