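/-
The bound on the flat tangent space at `p`.
-/
import Fermat.Agent.FlatBound.Cases.Split

set_option autoImplicit false

noncomputable section

namespace Fermat.Agent.FlatBound

open Fermat.Agent.Galois (GQ)
open Fermat.Agent.Deform (Mat2)

/-- Flat cocycles with values in the trace zero matrices span at most a four-dimensional space on a
decomposition group: four is the dimension `3 - h⁰` of the coboundaries plus the bound `h⁰ + 1`. -/
theorem flat_cocycles_le_four {p : ℕ} [Fact p.Prime] (hp2 : p ≠ 2) {k : Type} [Field k] [Finite k]
    [CharP k p] {r : GQ →* Mat2 k} (hdet : DetCyclo p r)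
    {A : ValuationSubring (AlgebraicClosure ℚ)} (hA : A.LiesOverPrime p)
    {n : ℕ} (c : Fin n → GQ → Mat2 k) (htr : ∀ i σ, (c i σ).trace = 0)
    (hflat : ∀ i, HasFlatLift p r (c i))
    (hli : LinearIndependent k fun i => fun σ : A.decompositionSubgroup ℚ => c i (σ : GQ)) :
    n ≤ 4 := by
  rcases n with _ | m
  · exact Nat.zero_le _
  have hp3 : 3 ≤ p := by
    have := (Fact.out : p.Prime).two_le
    omega
  obtain ⟨S⟩ := nonempty_setting hA hp3
  obtain ⟨Φ, hΦ⟩ := bounded_of_family S (⟨hdet, htr, hflat⟩ : Family p r c)
  let C : (Fin (m + 1) → k) →ₗ[k] (GQ → Mat2 k) := Fintype.linearCombination k c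
  have hinj : Function.Injective (Φ.comp C) := by
    refine (injective_iff_map_eq_zero (Φ.comp C)).mpr fun x hx => ?_
    have hmem : C x ∈ Submodule.span k (Set.range c) := by
      rw [← Fintype.range_linearCombination]
      exact LinearMap.mem_range_self _ x
    funext i
    refine Fintype.linearIndependent_iff.mp hli x (funext fun σ => ?_) i
    have h := hΦ _ hmem hx σ σ.2
    simpa [C, Fintype.linearCombination_apply, Finset.sum_apply] using h
  have h := LinearMap.finrank_le_finrank_of_injective hinj
  simpa [Module.finrank_fin_fun] using h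

end Fermat.Agent.FlatBound
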